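import Fermat.Agent.Tsen.Quad
import Fermat.Agent.TorsInj.Nonspecial
import Fermat.Agent.Deuring.PoleDiv
import Fermat.Agent.Deuring.Main

/-!
# Tsen's theorem for conics, and surjectivity of the norm of an involution
-/

set_option autoImplicit false

noncomputable section

open AlgebraicCurve Module IntermediateField

namespace Fermat.Agent.Tsen

open Fermat.Agent.FunField Fermat.Agent.FunField.PlaceLemmas Fermat.Agent.Deuring

section Conic

variable {K F : Type*} [Field K] [Field F] [Algebra K F] [IsFF K F]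

/-- an effective divisor bounding the poles of two functions. -/
theorem exists_bound (u f : F) : ∃ B : Divisor K F, (1 : F) ∈ riemannRochSpace B ∧
    u ∈ riemannRochSpace B ∧ f ∈ riemannRochSpace B := by
  classical
  refine ⟨(0 ⊔ (-divOf u)) ⊔ (-divOf f), ?_, ?_, ?_⟩
  · apply one_mem_rr
    exact le_sup_left.trans le_sup_left
  · rcases eq_or_ne u 0 with rfl | hu
    · exact Submodule.zero_mem _
    rw [mem_rr_of_ne hu]
    intro v
    have h1 : (-divOf u : Divisor K F) ≤ (0 ⊔ (-divOf u)) ⊔ (-divOf f) :=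
      le_sup_right.trans le_sup_left
    have h2 := Finsupp.le_def.mp h1 v
    rw [Finsupp.neg_apply, divOf_apply] at h2
    omega
  · rcases eq_or_ne f 0 with rfl | hf
    · exact Submodule.zero_mem _
    rw [mem_rr_of_ne hf]
    intro v
    have h1 : (-divOf f : Divisor K F) ≤ (0 ⊔ (-divOf u)) ⊔ (-divOf f) := le_sup_right
    have h2 := Finsupp.le_def.mp h1 v
    rw [Finsupp.neg_apply, divOf_apply] at h2
    omega

/-- **Tsen's theorem for conics.** -/
theorem exists_conic (K : Type*) {F : Type*} [Field K] [Field F] [Algebra K F] [IsFF K F]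
    [IsAlgClosed K] (u f : F) :
    ∃ a b c : F, ¬ (a = 0 ∧ b = 0 ∧ c = 0) ∧ a ^ 2 - u * b ^ 2 - f * c ^ 2 = 0 := by
  classical
  obtain ⟨B, h1, hu, hf⟩ := exists_bound (K := K) u f
  obtain ⟨c₀, hc₀⟩ := Fermat.Agent.TorsInj.rrLarge_genusFF (K := K) (F := F)
  obtain ⟨P⟩ := Fermat.Agent.FunField.exists_place (K := K) (F := F)
  set g : ℤ := ((genusFF K F : ℕ) : ℤ) with hg
  let n : ℕ := c₀.natAbs + (Divisor.degree B).natAbs + 2 * g.natAbs + 5
  have hn : (n : ℤ) = |c₀| + |Divisor.degree B| + 2 * |g| + 5 := by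
    simp only [n]; push_cast; rfl
  have e1 := le_abs_self c₀
  have e2 := le_abs_self (Divisor.degree B)
  have e3 := neg_abs_le (Divisor.degree B)
  have e4 := le_abs_self g
  have e5 := abs_nonneg c₀
  have e6 := abs_nonneg g
  let D : Divisor K F := Finsupp.single P (n : ℤ)
  have hdD : Divisor.degree D = n := by
    rw [Divisor.degree_single, Deuring.deg_eq_one, Nat.cast_one, mul_one]
  have hdW : Divisor.degree (D + D + B) = n + n + Divisor.degree B := by
    rw [map_add, map_add, hdD]
  obtain ⟨i1, r1⟩ := hc₀ D (by rw [hdD]; linarith [abs_nonneg (Divisor.degree B)])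
  obtain ⟨i2, r2⟩ := hc₀ (D + D + B) (by rw [hdW]; linarith [abs_nonneg (Divisor.degree B)])
  rw [hdD] at r1
  rw [hdW] at r2
  have hmul : ∀ {x y z : F}, x ∈ riemannRochSpace D → y ∈ riemannRochSpace D →
      z ∈ riemannRochSpace B → z * x * y ∈ riemannRochSpace (D + D + B) := by
    intro x y z hx hy hz
    have := Deuring.mul_mem_rr (Deuring.mul_mem_rr hx hy) hz
    have e : z * x * y = x * y * z := by ring
    rw [e]; exact this
  let V := riemannRochSpace D × riemannRochSpace D × riemannRochSpace D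
  let Q : V → V → riemannRochSpace (D + D + B) := fun v v' =>
    ⟨1 * v.1.1 * v'.1.1 - u * v.2.1.1 * v'.2.1.1 - f * v.2.2.1 * v'.2.2.1,
      Submodule.sub_mem _ (Submodule.sub_mem _ (hmul v.1.2 v'.1.2 h1)
        (hmul v.2.1.2 v'.2.1.2 hu)) (hmul v.2.2.2 v'.2.2.2 hf)⟩
  let Bil : V →ₗ[K] V →ₗ[K] riemannRochSpace (D + D + B) := LinearMap.mk₂ K Q
    (fun v v' w => Subtype.ext (by
      show 1 * (v.1.1 + v'.1.1) * w.1.1 - u * (v.2.1.1 + v'.2.1.1) * w.2.1.1 -
        f * (v.2.2.1 + v'.2.2.1) * w.2.2.1 =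
        (1 * v.1.1 * w.1.1 - u * v.2.1.1 * w.2.1.1 - f * v.2.2.1 * w.2.2.1) +
        (1 * v'.1.1 * w.1.1 - u * v'.2.1.1 * w.2.1.1 - f * v'.2.2.1 * w.2.2.1)
      ring))
    (fun c v w => Subtype.ext (by
      show 1 * (c • v.1.1) * w.1.1 - u * (c • v.2.1.1) * w.2.1.1 -
        f * (c • v.2.2.1) * w.2.2.1 =
        c • (1 * v.1.1 * w.1.1 - u * v.2.1.1 * w.2.1.1 - f * v.2.2.1 * w.2.2.1)
      simp only [Algebra.smul_def]
      ring))
    (fun v w w' => Subtype.ext (by
      show 1 * v.1.1 * (w.1.1 + w'.1.1) - u * v.2.1.1 * (w.2.1.1 + w'.2.1.1) -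
        f * v.2.2.1 * (w.2.2.1 + w'.2.2.1) =
        (1 * v.1.1 * w.1.1 - u * v.2.1.1 * w.2.1.1 - f * v.2.2.1 * w.2.2.1) +
        (1 * v.1.1 * w'.1.1 - u * v.2.1.1 * w'.2.1.1 - f * v.2.2.1 * w'.2.2.1)
      ring))
    (fun c v w => Subtype.ext (by
      show 1 * v.1.1 * (c • w.1.1) - u * v.2.1.1 * (c • w.2.1.1) -
        f * v.2.2.1 * (c • w.2.2.1) =
        c • (1 * v.1.1 * w.1.1 - u * v.2.1.1 * w.2.1.1 - f * v.2.2.1 * w.2.2.1)
      simp only [Algebra.smul_def]
      ring))
  have hV : finrank K V = finrank K (riemannRochSpace D) + (finrank K (riemannRochSpace D) +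
      finrank K (riemannRochSpace D)) := by
    simp only [V]
    rw [finrank_prod, finrank_prod]
  have hlt : finrank K (riemannRochSpace (D + D + B)) < finrank K V := by
    have : (finrank K (riemannRochSpace (D + D + B)) : ℤ) < finrank K V := by
      rw [hV]
      push_cast
      rw [r1, r2]
      linarith
    exact_mod_cast this
  obtain ⟨v, hv0, hv⟩ := exists_isotropic hlt Bil
  refine ⟨v.1.1, v.2.1.1, v.2.2.1, ?_, ?_⟩
  · rintro ⟨ha, hb, hc⟩
    exact hv0 (Prod.ext (Subtype.ext ha) (Prod.ext (Subtype.ext hb) (Subtype.ext hc)))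
  · have h2 : 1 * v.1.1 * v.1.1 - u * v.2.1.1 * v.2.1.1 - f * v.2.2.1 * v.2.2.1 = 0 :=
      congrArg Subtype.val hv
    linear_combination h2

end Conic

section Fixed

variable {K F : Type*} [Field K] [Field F] [Algebra K F]

/-- the fixed field of an automorphism -/
def fixedBy (w : F ≃ₐ[K] F) : IntermediateField K F where
  carrier := {x | w x = x}
  mul_mem' {x y} hx hy := by
    have hx' : w x = x := hx
    have hy' : w y = y := hy
    show w (x * y) = x * y
    rw [map_mul, hx', hy']
  one_mem' := map_one w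
  add_mem' {x y} hx hy := by
    have hx' : w x = x := hx
    have hy' : w y = y := hy
    show w (x + y) = x + y
    rw [map_add, hx', hy']
  zero_mem' := map_zero w
  algebraMap_mem' c := w.commutes c
  inv_mem' x hx := by
    have hx' : w x = x := hx
    show w x⁻¹ = x⁻¹
    rw [map_inv₀, hx']

theorem mem_fixedBy {w : F ≃ₐ[K] F} {x : F} : x ∈ fixedBy w ↔ w x = x := Iff.rfl

/-- A subextension of a function field with a transcendental element is a function field. -/
theorem isFF_intermediateField [IsFF K F] (E : IntermediateField K F) (t : E)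
    (ht : Transcendental K t) : IsFF K E := by
  have ht' : Transcendental K (t : F) := by
    intro h
    apply ht
    exact (isAlgebraic_algebraMap_iff (algebraMap E F).injective).mp h
  have hfin := finiteDimensional_adjoin_of_isFF (K := K) ht'
  have hmap : (K⟮t⟯).map E.val = K⟮(t : F)⟯ := by
    rw [adjoin_map, Set.image_singleton]; rfl
  let e₁ : K⟮t⟯ ≃+* K⟮(t : F)⟯ :=
    ((equivMap K⟮t⟯ E.val).trans (IntermediateField.equivOfEq hmap)).toRingEquiv
  have he : ∀ x : K⟮t⟯, ((e₁ x : K⟮(t : F)⟯) : F) = ((x : E) : F) := fun x => rfl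
  have h1 : Module.Finite K⟮t⟯ F := by
    refine Module.Finite.of_equiv_equiv (A₁ := K⟮(t : F)⟯) (B₁ := F) (A₂ := K⟮t⟯) (B₂ := F)
      e₁.symm (RingEquiv.refl F) ?_
    ext x
    obtain ⟨y, rfl⟩ := e₁.surjective x
    simp only [RingHom.comp_apply]
    show algebraMap K⟮t⟯ F (e₁.symm (e₁ y)) = ((e₁ y : K⟮(t : F)⟯) : F)
    rw [RingEquiv.symm_apply_apply, he]
    rfl
  have h2 : Module.Finite K⟮t⟯ E := FiniteDimensional.left K⟮t⟯ E F
  exact ⟨⟨t, ht, h2⟩⟩

/-- The fixed field of an involution of a function field is a function field. -/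
theorem isFF_fixedBy [IsFF K F] [IsAlgClosed K] (w : F ≃ₐ[K] F) (hw : ∀ x, w (w x) = x) :
    IsFF K (fixedBy w) := by
  obtain ⟨x, hx, -⟩ := IsFF.exists_transcendental (K := K) (F := F)
  have hs : x + w x ∈ fixedBy w := by
    rw [mem_fixedBy, map_add, hw, add_comm]
  have hp : x * w x ∈ fixedBy w := by
    rw [mem_fixedBy, map_mul, hw, mul_comm]
  by_cases h1 : Transcendental K (⟨_, hs⟩ : fixedBy w)
  · exact isFF_intermediateField _ _ h1
  by_cases h2 : Transcendental K (⟨_, hp⟩ : fixedBy w)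
  · exact isFF_intermediateField _ _ h2
  exfalso
  have h3 : ∀ y : fixedBy w, ¬ Transcendental K y → ∃ c : K, algebraMap K F c = y := by
    intro y hy
    have hy' : IsAlgebraic K y := not_not.mp hy
    have hy2 : IsAlgebraic K (y : F) :=
      (isAlgebraic_algebraMap_iff (algebraMap (fixedBy w) F).injective).mpr hy'
    exact mem_range_algebraMap_of_isAlgebraic hy2
  obtain ⟨a, ha⟩ := h3 _ h1
  obtain ⟨b, hb⟩ := h3 _ h2
  apply hx
  refine ⟨Polynomial.X ^ 2 - Polynomial.C a * Polynomial.X + Polynomial.C b, ?_, ?_⟩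
  · intro h0
    have h4 := congrArg (fun p => Polynomial.coeff p 2) h0
    simp at h4
  · rw [map_add, map_sub, map_mul, map_pow, Polynomial.aeval_X, Polynomial.aeval_C,
      Polynomial.aeval_C, ha, hb]
    show x ^ 2 - (x + w x) * x + x * w x = 0
    ring

/-- **Norm surjectivity for an involution** of a function field over an algebraically closed
field of characteristic `≠ 2`. -/
theorem exists_norm_of_two_ne_zero [IsAlgClosed K] [IsFF K F] (h2 : (2 : F) ≠ 0) (w : F ≃ₐ[K] F)
    (hw : ∀ x, w (w x) = x) (hne : ∃ x, w x ≠ x) (f : F) (hf : w f = f) :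
    ∃ g, f = g * w g := by
  have hFF := isFF_fixedBy w hw
  obtain ⟨x, hx⟩ := hne
  set y : F := x - w x with hy
  have hwy : w y = -y := by rw [hy, map_sub, hw]; ring
  have hy0 : y ≠ 0 := fun h => hx (sub_eq_zero.mp h).symm
  have hu : y ^ 2 ∈ fixedBy w := by rw [mem_fixedBy, map_pow, hwy]; ring
  obtain ⟨a, b, c, hne, habc⟩ := exists_conic K (⟨y ^ 2, hu⟩ : fixedBy w) ⟨f, hf⟩
  have h3 : (a : F) ^ 2 - y ^ 2 * (b : F) ^ 2 - f * (c : F) ^ 2 = 0 := congrArg Subtype.val habc
  have ha : w (a : F) = a := a.2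
  have hb : w (b : F) = b := b.2
  have hc : w (c : F) = c := c.2
  have hc0 : (c : F) ≠ 0 := by
    intro h0
    rw [h0] at h3
    have h4 : ((a : F) - y * b) * (a + y * b) = 0 := by linear_combination h3
    have hb0 : (b : F) ≠ 0 := by
      intro hb0
      rw [hb0] at h4
      have ha0 : (a : F) = 0 := by
        have : (a : F) * a = 0 := by linear_combination h4
        exact mul_self_eq_zero.mp this
      exact hne ⟨Subtype.ext ha0, Subtype.ext hb0, Subtype.ext h0⟩
    rcases mul_eq_zero.mp h4 with h5 | h5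
    · have h6 := congrArg w h5
      rw [map_sub, map_mul, ha, hb, hwy, map_zero] at h6
      have h7 : 2 * (y * b) = 0 := by linear_combination h6 - h5
      rcases mul_eq_zero.mp h7 with h8 | h8
      · exact h2 h8
      · exact (mul_ne_zero hy0 hb0) h8
    · have h6 := congrArg w h5
      rw [map_add, map_mul, ha, hb, hwy, map_zero] at h6
      have h7 : 2 * (y * b) = 0 := by linear_combination h5 - h6
      rcases mul_eq_zero.mp h7 with h8 | h8
      · exact h2 h8
      · exact (mul_ne_zero hy0 hb0) h8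
  refine ⟨(a + y * b) / c, ?_⟩
  rw [map_div₀, map_add, map_mul, ha, hb, hc, hwy]
  field_simp
  linear_combination -h3

/-- **Norm surjectivity for an involution** (characteristic zero). -/
theorem exists_norm [IsAlgClosed K] [CharZero K] [IsFF K F] (w : F ≃ₐ[K] F)
    (hw : ∀ x, w (w x) = x) (hne : ∃ x, w x ≠ x) (f : F) (hf : w f = f) :
    ∃ g, f = g * w g := by
  have : CharZero F := charZero_of_injective_algebraMap (algebraMap K F).injective
  exact exists_norm_of_two_ne_zero two_ne_zero w hw hne f hf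

end Fixed

end Fermat.Agent.Tsen
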