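import Mathlib

/-!
# Common zeros of homogeneous systems over algebraically closed fields
-/

set_option autoImplicit false

noncomputable section

namespace Fermat.Agent.Tsen

open MvPolynomial Module

variable {K : Type*} [Field K]

/-- killing the first `i` variables -/
def kill (s i : ℕ) : MvPolynomial (Fin s) K →ₐ[K] MvPolynomial (Fin s) K :=
  aeval fun j : Fin s => if j.val < i then 0 else X j

theorem kill_X (s i : ℕ) (j : Fin s) :
    kill (K := K) s i (X j) = if j.val < i then 0 else X j := aeval_X _ _

theorem kill_kill (s i : ℕ) (p : MvPolynomial (Fin s) K) :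
    kill s (i + 1) (kill s i p) = kill s (i + 1) p := by
  have h : (kill s (i + 1)).comp (kill s i) = kill (K := K) s (i + 1) := by
    apply MvPolynomial.algHom_ext
    intro j
    rw [AlgHom.comp_apply, kill_X, kill_X]
    by_cases h1 : j.val < i
    · rw [if_pos h1, if_pos (by omega), map_zero]
    · rw [if_neg h1, kill_X]
  exact DFunLike.congr_fun h p

/-- the chain of primes -/
def chainPrime (s : ℕ) (i : ℕ) : PrimeSpectrum (MvPolynomial (Fin s) K) :=
  ⟨RingHom.ker (kill (K := K) s i), RingHom.ker_isPrime _⟩

theorem chainPrime_lt {s i : ℕ} (hi : i < s) :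
    chainPrime (K := K) s i < chainPrime s (i + 1) := by
  rw [← PrimeSpectrum.asIdeal_lt_asIdeal]
  refine lt_of_le_of_ne (fun p hp => ?_) (fun h => ?_)
  · have hp' : kill s i p = 0 := hp
    show kill s (i + 1) p = 0
    rw [← kill_kill, hp', map_zero]
  · have h1 : (X ⟨i, hi⟩ : MvPolynomial (Fin s) K) ∈ (chainPrime (K := K) s (i + 1)).asIdeal := by
      show kill s (i + 1) (X ⟨i, hi⟩) = 0
      rw [kill_X, if_pos (Nat.lt_succ_self i)]
    rw [← h] at h1
    have h2 : kill s i (X ⟨i, hi⟩ : MvPolynomial (Fin s) K) = 0 := h1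
    rw [kill_X, if_neg (lt_irrefl i)] at h2
    exact X_ne_zero _ h2

/-- the origin has height at least `s`. -/
theorem le_height_vanishingIdeal (s : ℕ) :
    (s : ℕ∞) ≤ (vanishingIdeal K ({0} : Set (Fin s → K)) : Ideal (MvPolynomial (Fin s) K)).height := by
  let S : LTSeries (PrimeSpectrum (MvPolynomial (Fin s) K)) :=
    { length := s
      toFun := fun i => chainPrime s i
      step := fun i => chainPrime_lt i.2 }
  have hlast : S.last ≤ ⟨vanishingIdeal K ({0} : Set (Fin s → K)), inferInstance⟩ := by
    rw [← PrimeSpectrum.asIdeal_le_asIdeal]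
    intro p hp
    have hp' : kill s s p = 0 := hp
    show p ∈ vanishingIdeal K ({0} : Set (Fin s → K))
    rw [mem_vanishingIdeal_singleton_iff]
    have h1 : (aeval (0 : Fin s → K)).comp (kill (K := K) s s) = aeval (0 : Fin s → K) := by
      apply MvPolynomial.algHom_ext
      intro j
      rw [AlgHom.comp_apply, kill_X, if_pos j.2, map_zero, aeval_X]
      rfl
    rw [← h1, AlgHom.comp_apply, hp', map_zero]
  have h2 := Order.length_le_height hlast
  have h3 := PrimeSpectrum.height_eq_orderHeight
    (⟨vanishingIdeal K ({0} : Set (Fin s → K)), inferInstance⟩ :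
      PrimeSpectrum (MvPolynomial (Fin s) K))
  rw [← h3] at h2
  exact h2

/-- Fewer equations than unknowns have a nonzero common zero. -/
theorem exists_common_zero [IsAlgClosed K] {r s : ℕ} (hrs : r < s)
    (p : Fin r → MvPolynomial (Fin s) K) (hp : ∀ i, aeval (0 : Fin s → K) (p i) = 0) :
    ∃ x : Fin s → K, x ≠ 0 ∧ ∀ i, aeval x (p i) = 0 := by
  classical
  by_contra hcon
  push Not at hcon
  let S : Finset (MvPolynomial (Fin s) K) := Finset.univ.image p
  set I : Ideal (MvPolynomial (Fin s) K) := Ideal.span (S : Set (MvPolynomial (Fin s) K)) with hI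
  have hz : zeroLocus K I = {0} := by
    rw [hI, zeroLocus_span]
    ext x
    simp only [Set.mem_ofPred_eq, Set.mem_singleton_iff]
    constructor
    · intro hx
      by_contra hx0
      obtain ⟨i, hi⟩ := hcon x hx0
      exact hi (hx (p i) (by simp [S]))
    · rintro rfl q hq
      simp only [S, Finset.coe_image, Finset.coe_univ, Set.image_univ, Set.mem_range] at hq
      obtain ⟨i, rfl⟩ := hq
      exact hp i
  have hrad : I.radical = vanishingIdeal K ({0} : Set (Fin s → K)) := by
    rw [← hz, vanishingIdeal_zeroLocus_eq_radical]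
  have hmin : (vanishingIdeal K ({0} : Set (Fin s → K)) : Ideal (MvPolynomial (Fin s) K)) ∈
      I.minimalPrimes := by
    rw [← hrad]
    refine ⟨⟨by rw [hrad]; infer_instance, Ideal.le_radical⟩, ?_⟩
    rintro q ⟨hq, hIq⟩ -
    exact hq.radical_le_iff.mpr hIq
  have h1 := Ideal.height_le_card_of_mem_minimalPrimes_span_finset hmin
  have h2 := le_height_vanishingIdeal (K := K) s
  have h3 : S.card ≤ r := Finset.card_image_le.trans (by simp)
  have h4 := h2.trans (h1.trans (by exact_mod_cast h3 : (S.card : ℕ∞) ≤ r))
  have h5 : s ≤ r := by exact_mod_cast h4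
  omega

/-- Quadratic maps `V → W` with `dim W < dim V` have a nontrivial zero. -/
theorem exists_isotropic [IsAlgClosed K] {V W : Type*} [AddCommGroup V] [Module K V]
    [AddCommGroup W] [Module K W] [FiniteDimensional K V] [FiniteDimensional K W]
    (hVW : finrank K W < finrank K V) (B : V →ₗ[K] V →ₗ[K] W) : ∃ v : V, v ≠ 0 ∧ B v v = 0 := by
  classical
  let bV := Module.finBasis K V
  let bW := Module.finBasis K W
  let p : Fin (finrank K W) → MvPolynomial (Fin (finrank K V)) K := fun k =>
    ∑ i, ∑ j, C (bW.repr (B (bV i) (bV j)) k) * (X i * X j)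
  obtain ⟨x, hx0, hx⟩ := exists_common_zero hVW p (fun k => by simp [p])
  refine ⟨∑ i, x i • bV i, ?_, ?_⟩
  · intro h
    apply hx0
    funext i
    have := Fintype.linearIndependent_iff.mp bV.linearIndependent x h i
    exact this
  · apply bW.repr.injective
    ext k
    rw [map_zero, Finsupp.zero_apply, ← hx k]
    simp only [map_sum, LinearMap.sum_apply, map_smul, LinearMap.smul_apply, Finsupp.coe_finsetSum,
      Finset.sum_apply, Finsupp.smul_apply, smul_eq_mul, p, map_mul, aeval_C, aeval_X,
      Algebra.algebraMap_self, RingHom.id_apply, Finset.smul_sum]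
    rw [Finset.sum_comm]
    refine Finset.sum_congr rfl fun i _ => Finset.sum_congr rfl fun j _ => ?_
    ring

end Fermat.Agent.Tsen
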